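import Fermat.Agent.Lib.FrobDensity.Bridge
import Fermat.Agent.S05.Inertia

/-!
# Frobenius density theorem: strong form of the bridge

For a prime `P` of a finite Galois `E ⊆ ℚ̄` with trivial inertia group there is a valuation
subring `A` of `ℚ̄` over `P` such that the inertia group at `A` fixes `E` pointwise and EVERY
Frobenius element at `A` restricts to a generator of the decomposition group of `P`.
-/

set_option autoImplicit false
set_option linter.style.haveILetI false

namespace Fermat.Agent.Lib.FrobDensity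

open NumberField Ideal
open scoped Pointwise

theorem exists_valuationSubring_of_inertia_eq_bot
    (E : IntermediateField ℚ (AlgebraicClosure ℚ)) [NumberField E] [IsGalois ℚ E]
    (ℓ : ℕ) (hℓ : ℓ.Prime) (P : Ideal (𝓞 E)) (hP : P.IsPrime) (hℓP : (ℓ : 𝓞 E) ∈ P)
    (hI : Ideal.inertia (E ≃ₐ[ℚ] E) P = ⊥) :
    ∃ A : ValuationSubring (AlgebraicClosure ℚ),
      A.LiesOverPrime ℓ ∧ A.inertiaSubgroupIn ℚ ≤ E.fixingSubgroup ∧
      ∀ φ : AlgebraicClosure ℚ ≃ₐ[ℚ] AlgebraicClosure ℚ, A.IsFrobeniusAt φ ℓ →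
        MulAction.stabilizer (E ≃ₐ[ℚ] E) P =
          Subgroup.zpowers (AlgEquiv.restrictNormalHom E φ) := by
  classical
  have hPne : P ≠ ⊥ := by
    intro h
    rw [h, Ideal.mem_bot] at hℓP
    exact hℓ.ne_zero (by exact_mod_cast hℓP)
  haveI hPmax : P.IsMaximal := hP.isMaximal hPne
  let ι : 𝓞 E →+* AlgebraicClosure ℚ :=
    (algebraMap E (AlgebraicClosure ℚ)).comp (algebraMap (𝓞 E) E)
  have hιinj : Function.Injective ι :=
    (algebraMap E (AlgebraicClosure ℚ)).injective.comp (RingOfIntegers.coe_injective)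
  let R : Subring (AlgebraicClosure ℚ) := ι.range
  let e : 𝓞 E →+* R := ι.rangeRestrict
  have hebij : Function.Bijective e :=
    ⟨fun x y h => hιinj (show ι x = ι y from congrArg (Subtype.val : R → AlgebraicClosure ℚ) h),
      ι.rangeRestrict_surjective⟩
  have hIne : P.map e ≠ ⊤ := by
    intro h
    have h1 := Ideal.comap_map_of_bijective e hebij (I := P)
    rw [h, Ideal.comap_top] at h1
    exact hPmax.ne_top h1.symm
  obtain ⟨A, hRA, hA⟩ := Ideal.image_subset_nonunits_valuationSubring (P.map e) hIne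
  have hPA : ∀ x ∈ P, ι x ∈ A.nonunits := fun x hx => hA ⟨e x, Ideal.mem_map_of_mem e hx, rfl⟩
  have hιA : ∀ x : 𝓞 E, ι x ∈ A := fun x => hRA ⟨x, rfl⟩
  have hLies : A.LiesOverPrime ℓ := by
    have := hPA _ hℓP
    simpa [ValuationSubring.LiesOverPrime] using this
  let ιA : 𝓞 E →+* A :=
    { toFun := fun x => ⟨ι x, hιA x⟩
      map_one' := Subtype.ext (map_one ι)
      map_mul' := fun x y => Subtype.ext (map_mul ι x y)
      map_zero' := Subtype.ext (map_zero ι)
      map_add' := fun x y => Subtype.ext (map_add ι x y) }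
  let Q : Ideal (𝓞 E) := (IsLocalRing.maximalIdeal A).comap ιA
  have hQmem : ∀ x : 𝓞 E, x ∈ Q ↔ ι x ∈ A.nonunits := by
    intro x
    rw [ValuationSubring.mem_nonunits_iff_exists_mem_maximalIdeal]
    constructor
    · intro h
      exact ⟨hιA x, h⟩
    · rintro ⟨_, h⟩
      exact h
  have hQne : Q ≠ ⊤ := (Ideal.comap_isPrime ιA _).ne_top
  have hPQ : P = Q := hPmax.eq_of_le hQne (fun x hx => (hQmem x).2 (hPA x hx))
  refine ⟨A, hLies, ?_, ?_⟩
  · intro τ hτ
    have hin : AlgEquiv.restrictNormalHom E τ ∈ Ideal.inertia (E ≃ₐ[ℚ] E) P := by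
      intro x
      show (AlgEquiv.restrictNormalHom E τ) • x - x ∈ P
      rw [hPQ, hQmem]
      have h1 : ι ((AlgEquiv.restrictNormalHom E τ) • x) = τ (ι x) :=
        AlgEquiv.restrictNormal_commutes τ E (x : E)
      rw [map_sub, h1, ValuationSubring.mem_nonunits_iff]
      exact Fermat.Agent.S05.inertia_valuation_sub_lt_one A hτ
        ((A.valuation_le_one_iff _).2 (hιA x))
    rw [hI, Subgroup.mem_bot] at hin
    rw [IntermediateField.mem_fixingSubgroup_iff]
    intro x hx
    have h2 : ((AlgEquiv.restrictNormalHom E τ) ⟨x, hx⟩ : AlgebraicClosure ℚ) = τ x :=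
      AlgEquiv.restrictNormal_commutes τ E ⟨x, hx⟩
    rw [hin] at h2
    exact h2.symm
  · intro φ hφ
    apply stabilizer_eq_zpowers_of_frob E ℓ hℓ P hP hℓP hI
    intro x
    rw [hPQ, hQmem]
    have h1 : ι ((AlgEquiv.restrictNormalHom E φ) • x) = φ (ι x) :=
      AlgEquiv.restrictNormal_commutes φ E (x : E)
    rw [map_sub, map_pow, h1]
    exact frob_sub_pow_mem_nonunits A φ ℓ hφ (ι x) (hιA x)

end Fermat.Agent.Lib.FrobDensity
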