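import Fermat.Agent.Lib.FrobDensity.Defs
import Fermat.Agent.S14.Analytic.Basic

/-!
# Frobenius density theorem, block F3: `log ζ_M(s) = log (1/(s-1)) + O(1)` as `s → 1⁺`
-/

set_option autoImplicit false

namespace Fermat.Agent.Lib.FrobDensity

open NumberField Ideal Filter Topology
open scoped nonZeroDivisors Pointwise
open Fermat.Agent.S14.Analytic (term zetaSum)

theorem exists_abs_log_zetaSum_sub_le (M : Type*) [Field M] [NumberField M] :
    ∃ B : ℝ, ∀ᶠ s in 𝓝[>] (1 : ℝ), |Real.log (zetaSum M s) - Real.log (1 / (s - 1))| ≤ B := by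
  have hr : 0 < dedekindZeta_residue M := dedekindZeta_residue_pos M
  have h := Fermat.Agent.S14.Analytic.tendsto_zetaSum M
  have hlog : Tendsto (fun s : ℝ ↦ Real.log ((s - 1) * zetaSum M s)) (𝓝[>] 1)
      (𝓝 (Real.log (dedekindZeta_residue M))) :=
    (Real.continuousAt_log hr.ne').tendsto.comp h
  have hev : ∀ᶠ s in 𝓝[>] (1 : ℝ),
      |Real.log ((s - 1) * zetaSum M s) - Real.log (dedekindZeta_residue M)| < 1 := by
    have := hlog.eventually (Metric.ball_mem_nhds _ one_pos)
    simpa [Metric.mem_ball, Real.dist_eq] using this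
  have hpos : ∀ᶠ s in 𝓝[>] (1 : ℝ), 0 < (s - 1) * zetaSum M s :=
    h.eventually (lt_mem_nhds hr)
  refine ⟨|Real.log (dedekindZeta_residue M)| + 1, ?_⟩
  filter_upwards [hev, hpos, self_mem_nhdsWithin] with s h1 h2 h3
  have hs : 0 < s - 1 := sub_pos.mpr h3
  have hz : 0 < zetaSum M s := (pos_iff_pos_of_mul_pos h2).mp hs
  have e1 : Real.log ((s - 1) * zetaSum M s) = Real.log (s - 1) + Real.log (zetaSum M s) :=
    Real.log_mul hs.ne' hz.ne'
  have e2 : Real.log (1 / (s - 1)) = -Real.log (s - 1) := by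
    rw [one_div, Real.log_inv]
  have e3 : Real.log (zetaSum M s) - Real.log (1 / (s - 1)) =
      (Real.log ((s - 1) * zetaSum M s) - Real.log (dedekindZeta_residue M)) +
        Real.log (dedekindZeta_residue M) := by
    rw [e1, e2]; ring
  rw [e3]
  calc |(Real.log ((s - 1) * zetaSum M s) - Real.log (dedekindZeta_residue M)) +
        Real.log (dedekindZeta_residue M)|
      ≤ |Real.log ((s - 1) * zetaSum M s) - Real.log (dedekindZeta_residue M)| +
        |Real.log (dedekindZeta_residue M)| := abs_add_le _ _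
    _ ≤ |Real.log (dedekindZeta_residue M)| + 1 := by linarith

end Fermat.Agent.Lib.FrobDensity
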