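import Fermat.Agent.Lib.FrobDensity.Defs
import Fermat.Agent.S14.Analytic.Basic
import Fermat.Agent.S14.Analytic.EulerFactor
import Fermat.Agent.S14.Analytic.NonPrimeNorm

/-!
# Frobenius density theorem, block F2: `log ζ_M(s) ≤ ∑_ℓ primeCount M ℓ * ℓ^(-s) + B`
-/

set_option autoImplicit false

namespace Fermat.Agent.Lib.FrobDensity

open NumberField Ideal Filter Topology
open scoped nonZeroDivisors
open Fermat.Agent.S14.Analytic (term zetaSum)
open Fermat.Agent.S14.Analytic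

namespace Lower

/-- `(1-x)⁻¹ ≤ exp (x + 2 x²)` on `[0, 1/2]`. -/
lemma inv_one_sub_le_exp_add {x : ℝ} (h0 : 0 ≤ x) (h1 : x ≤ 1 / 2) :
    (1 - x)⁻¹ ≤ Real.exp (x + 2 * x ^ 2) := by
  have h2 : (1 - x)⁻¹ ≤ 1 + (x + 2 * x ^ 2) := by
    rw [inv_le_iff_one_le_mul₀ (by linarith)]
    nlinarith [mul_nonneg h0 h0, mul_nonneg (mul_nonneg h0 h0) (sub_nonneg.mpr h1)]
  have h3 : (x + 2 * x ^ 2) + 1 ≤ Real.exp (x + 2 * x ^ 2) := Real.add_one_le_exp _
  linarith

variable (M : Type*) [Field M] [NumberField M]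

/-- `term` as a monoid hom. -/
noncomputable def termHom (s : ℝ) : (Ideal (𝓞 M))⁰ →* ℝ where
  toFun := term M s
  map_one' := term_one M s
  map_mul' := term_mul M s

lemma termHom_apply (s : ℝ) (I : (Ideal (𝓞 M))⁰) : termHom M s I = term M s I := rfl

lemma summable_norm_termHom {s : ℝ} (hs : 1 < s) : Summable fun I ↦ ‖termHom M s I‖ := by
  refine (summable_term M hs).congr fun I ↦ ?_
  rw [termHom_apply, Real.norm_of_nonneg (term_pos M s I).le]

/-- every nonzero ideal `≠ 1` has a prime divisor. -/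
lemma exists_prime_dvd (I : (Ideal (𝓞 M))⁰) (hI : I ≠ 1) :
    ∃ q : (Ideal (𝓞 M))⁰, (q : Ideal (𝓞 M)).IsPrime ∧ q ∣ I := by
  have hI' : (I : Ideal (𝓞 M)) ≠ ⊤ := by
    intro h; apply hI; apply Subtype.ext; rw [h]; simp [Ideal.one_eq_top]
  obtain ⟨m, hm, hle⟩ := Ideal.exists_le_maximal _ hI'
  have hm0 : m ≠ ⊥ := by
    rintro rfl
    exact nonZeroDivisors.coe_ne_zero I (le_bot_iff.mp hle)
  refine ⟨⟨m, mem_nonZeroDivisors_iff_ne_zero.mpr hm0⟩, hm.isPrime, ?_⟩
  rw [nonZeroDivisors_dvd_iff_dvd_coe]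
  exact Ideal.dvd_iff_le.mpr hle

lemma term_sq_le {s : ℝ} (hs : 1 < s) (I : (Ideal (𝓞 M))⁰) :
    term M s I ^ 2 ≤ term M 2 I := by
  have h1 : term M s I ^ 2 = term M (2 * s) I := by
    unfold term
    rw [← Real.rpow_natCast, ← Real.rpow_mul (Nat.cast_nonneg _)]
    congr 1
    push_cast
    ring
  rw [h1]
  exact term_anti M (by linarith) I

/-- the finite set of primes whose norm lies in a given finite set -/
noncomputable def primesIn (F : Finset ℕ) : Finset (Ideal (𝓞 M))⁰ :=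
  Set.Finite.toFinset (s := {q : (Ideal (𝓞 M))⁰ | (q : Ideal (𝓞 M)).IsPrime ∧
    absNorm (q : Ideal (𝓞 M)) ∈ F})
    ((Ideal.finite_setOfPred_absNorm_le₀ (S := 𝓞 M) (F.sup id)).subset
      fun _ hq => Finset.le_sup (f := id) hq.2)

lemma mem_primesIn {F : Finset ℕ} {q : (Ideal (𝓞 M))⁰} :
    q ∈ primesIn M F ↔ (q : Ideal (𝓞 M)).IsPrime ∧ absNorm (q : Ideal (𝓞 M)) ∈ F := by
  simp [primesIn]

open Classical in
lemma card_filter_primesIn {F : Finset ℕ} {ℓ : ℕ} (hℓ : ℓ ∈ F) (h0 : ℓ ≠ 0) :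
    ((primesIn M F).filter fun q : (Ideal (𝓞 M))⁰ => absNorm (q : Ideal (𝓞 M)) = ℓ).card =
      primeCount M ℓ := by
  unfold primeCount
  rw [← Finset.card_map ⟨Subtype.val, Subtype.val_injective⟩]
  refine (Nat.subtype_card _ fun x => ?_).symm
  simp only [Finset.mem_map, Finset.mem_filter, mem_primesIn, Function.Embedding.coeFn_mk]
  constructor
  · rintro ⟨q, ⟨⟨hq, -⟩, hN⟩, rfl⟩
    exact ⟨hq, hN⟩
  · rintro ⟨hx, hN⟩
    have hx0 : x ≠ ⊥ := by
      rintro rfl
      apply h0; rw [← hN]; simp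
    exact ⟨⟨x, mem_nonZeroDivisors_iff_ne_zero.mpr hx0⟩, ⟨⟨hx, hN ▸ hℓ⟩, hN⟩, rfl⟩

open Classical in
lemma sum_term_primesIn (s : ℝ) {F : Finset ℕ} (hF : ∀ ℓ ∈ F, ℓ ≠ 0) :
    ∑ q ∈ primesIn M F, term M s q = ∑ ℓ ∈ F, (primeCount M ℓ : ℝ) * (ℓ : ℝ) ^ (-s) := by
  rw [← Finset.sum_fiberwise_of_maps_to (s := primesIn M F) (t := F)
    (g := fun q : (Ideal (𝓞 M))⁰ => absNorm (q : Ideal (𝓞 M)))
    (fun q hq => ((mem_primesIn M).mp hq).2) (f := fun q => term M s q)]
  refine Finset.sum_congr rfl fun ℓ hℓ => ?_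
  rw [← card_filter_primesIn M hℓ (hF ℓ hℓ), ← nsmul_eq_mul, ← Finset.sum_const]
  refine Finset.sum_congr rfl fun q hq => ?_
  unfold term
  rw [(Finset.mem_filter.mp hq).2]

end Lower

open Lower in
theorem exists_log_zetaSum_le (M : Type*) [Field M] [NumberField M] :
    ∃ B : ℝ, ∀ s : ℝ, 1 < s → ∃ F₀ : Finset ℕ, ∀ F : Finset ℕ, F₀ ⊆ F →
      Real.log (zetaSum M s) ≤
        ∑ ℓ ∈ F.filter Nat.Prime, (primeCount M ℓ : ℝ) * (ℓ : ℝ) ^ (-s) + B := by
  classical
  obtain ⟨B2, hB2, hB2'⟩ := prod_nonprime_norm_bounded M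
  refine ⟨Real.log 2 + Real.log B2 + 2 * zetaSum M 2, fun s hs => ?_⟩
  have hsum := summable_term M hs
  have htend := tendsto_tsum_compl_atTop_zero (term M s)
  obtain ⟨U, hU⟩ := (htend.eventually (gt_mem_nhds (zero_lt_one' ℝ))).exists
  choose! pd hpd using exists_prime_dvd M
  set T₀ : Finset (Ideal (𝓞 M))⁰ := (U.filter (· ≠ 1)).image pd with hT₀
  refine ⟨T₀.image (fun q : (Ideal (𝓞 M))⁰ => absNorm (q : Ideal (𝓞 M))), fun F hF => ?_⟩
  set TF := primesIn M (F.filter Nat.Prime) with hTF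
  set T1 := T₀.filter (fun q : (Ideal (𝓞 M))⁰ => ¬ (absNorm (q : Ideal (𝓞 M))).Prime) with hT1
  have hT₀prime : ∀ q ∈ T₀, (q : Ideal (𝓞 M)).IsPrime := by
    intro q hq
    obtain ⟨I, hI, rfl⟩ := Finset.mem_image.mp hq
    exact (hpd I (Finset.mem_filter.mp hI).2).1
  have hTprime : ∀ q ∈ TF ∪ T1, (q : Ideal (𝓞 M)).IsPrime := by
    intro q hq
    rcases Finset.mem_union.mp hq with h | h
    · exact ((mem_primesIn M).mp h).1
    · exact hT₀prime q (Finset.mem_filter.mp h).1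
  have hT₀T : T₀ ⊆ TF ∪ T1 := by
    intro q hq
    by_cases hp : (absNorm (q : Ideal (𝓞 M))).Prime
    · apply Finset.mem_union_left
      rw [hTF, mem_primesIn]
      exact ⟨hT₀prime q hq, Finset.mem_filter.mpr ⟨hF (Finset.mem_image_of_mem _ hq), hp⟩⟩
    · exact Finset.mem_union_right _ (Finset.mem_filter.mpr ⟨hq, hp⟩)
  have hdisj : Disjoint TF T1 := by
    rw [Finset.disjoint_left]
    intro q h1 h2
    exact (Finset.mem_filter.mp h2).2 (Finset.mem_filter.mp ((mem_primesIn M).mp h1).2).2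
  -- the sieved sum is at most 2
  have key := prod_one_sub_mul_tsum_real M (termHom M s) (summable_norm_termHom M hs)
    (TF ∪ T1) hTprime
  have hsieve : (∏ q ∈ TF ∪ T1, (1 - termHom M s q)) * ∑' I, termHom M s I ≤ 2 := by
    rw [key]
    have hs1 : Summable (fun I : (Ideal (𝓞 M))⁰ => if I = 1 then (1 : ℝ) else 0) :=
      summable_of_ne_finset_zero (s := {1}) (fun I hI => by
        rw [if_neg (by simpa using hI)])
    have hs2 : Summable (Set.indicator {x : (Ideal (𝓞 M))⁰ | x ∉ U} (term M s)) :=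
      hsum.indicator _
    refine ((summable_sieve_ideal_real M (termHom M s) (summable_norm_termHom M hs)
      (TF ∪ T1)).tsum_le_tsum (fun I => ?_) (hs1.add hs2)).trans ?_
    · have hind : 0 ≤ Set.indicator {x : (Ideal (𝓞 M))⁰ | x ∉ U} (term M s) I :=
        Set.indicator_nonneg (fun x _ => (term_pos M s x).le) _
      by_cases hI1 : I = 1
      · rw [if_pos hI1]
        split_ifs
        · rw [hI1] at hind ⊢
          rw [map_one]; linarith
        · linarith
      · rw [if_neg hI1, zero_add]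
        by_cases hIU : I ∈ U
        · rw [if_neg]
          · exact hind
          · intro hall
            exact hall (pd I) (hT₀T (Finset.mem_image_of_mem _
              (Finset.mem_filter.mpr ⟨hIU, hI1⟩))) (hpd I hI1).2
        · rw [Set.indicator_of_mem (show I ∈ {x : (Ideal (𝓞 M))⁰ | x ∉ U} from hIU)]
          split_ifs
          · exact le_rfl
          · exact (term_pos M s I).le
    · rw [hs1.tsum_add hs2, tsum_ite_eq, ← tsum_subtype]
      have : ∑' x : {x : (Ideal (𝓞 M))⁰ | x ∉ U}, term M s x < 1 := hU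
      linarith
  have hpos : ∀ q ∈ TF ∪ T1, 0 < 1 - term M s q ∧ term M s q ≤ 1 / 2 := by
    intro q hq
    have := term_le_half M hs.le q (hTprime q hq).ne_top
    exact ⟨by linarith, this⟩
  have hζle : zetaSum M s ≤ 2 * ∏ q ∈ TF ∪ T1, (1 - term M s q)⁻¹ := by
    rw [Finset.prod_inv_distrib]
    have hP : 0 < ∏ q ∈ TF ∪ T1, (1 - term M s q) :=
      Finset.prod_pos (fun q hq => (hpos q hq).1)
    rw [← div_eq_mul_inv, le_div_iff₀ hP, mul_comm]
    exact hsieve
  have h1 : ∏ q ∈ T1, (1 - term M s q)⁻¹ ≤ B2 :=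
    hB2' T1 (fun q hq => ⟨hT₀prime q (Finset.mem_filter.mp hq).1, (Finset.mem_filter.mp hq).2⟩)
      s hs.le
  have h2 : ∏ q ∈ TF, (1 - term M s q)⁻¹
      ≤ Real.exp (∑ q ∈ TF, (term M s q + 2 * term M s q ^ 2)) := by
    rw [Real.exp_sum]
    exact Finset.prod_le_prod
      (fun q hq => (inv_pos.mpr (hpos q (Finset.mem_union_left _ hq)).1).le)
      (fun q hq => inv_one_sub_le_exp_add (term_pos M s q).le
        (hpos q (Finset.mem_union_left _ hq)).2)
  have h3 : ∑ q ∈ TF, (term M s q + 2 * term M s q ^ 2)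
      ≤ ∑ ℓ ∈ F.filter Nat.Prime, (primeCount M ℓ : ℝ) * (ℓ : ℝ) ^ (-s) + 2 * zetaSum M 2 := by
    rw [Finset.sum_add_distrib, ← Finset.mul_sum,
      sum_term_primesIn M s (fun ℓ hℓ => (Finset.mem_filter.mp hℓ).2.ne_zero)]
    have : ∑ q ∈ TF, term M s q ^ 2 ≤ zetaSum M 2 :=
      (Finset.sum_le_sum (fun q _ => term_sq_le M hs q)).trans
        ((summable_term M one_lt_two).sum_le_tsum TF (fun q _ => (term_pos M 2 q).le))
    linarith
  have hζpos : 0 < zetaSum M s := by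
    have := hsum.le_tsum 1 (fun j _ => (term_pos M s j).le)
    rw [term_one] at this
    exact lt_of_lt_of_le one_pos this
  have hB2pos : 0 < B2 := lt_of_lt_of_le one_pos hB2
  have hfin : zetaSum M s
      ≤ 2 * (Real.exp (∑ q ∈ TF, (term M s q + 2 * term M s q ^ 2)) * B2) := by
    refine hζle.trans ?_
    rw [Finset.prod_union hdisj]
    have h0 : 0 ≤ ∏ q ∈ T1, (1 - term M s q)⁻¹ :=
      Finset.prod_nonneg (fun q hq => (inv_pos.mpr (hpos q (Finset.mem_union_right _ hq)).1).le)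
    have := mul_le_mul h2 h1 h0 (Real.exp_pos _).le
    linarith
  calc Real.log (zetaSum M s)
      ≤ Real.log (2 * (Real.exp (∑ q ∈ TF, (term M s q + 2 * term M s q ^ 2)) * B2)) :=
        Real.log_le_log hζpos hfin
    _ = Real.log 2 + (∑ q ∈ TF, (term M s q + 2 * term M s q ^ 2) + Real.log B2) := by
        rw [Real.log_mul (by norm_num) (mul_pos (Real.exp_pos _) hB2pos).ne',
          Real.log_mul (Real.exp_pos _).ne' hB2pos.ne', Real.log_exp]
    _ ≤ _ := by linarith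

end Fermat.Agent.Lib.FrobDensity
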