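import Fermat.Agent.Lib.FrobDensity.Defs
import Fermat.Agent.S14.Analytic.Basic
import Fermat.Agent.S14.Analytic.EulerFactor

/-!
# Frobenius density theorem, block F1: upper bound for the prime sum by `log ζ_M(s)`
-/

set_option autoImplicit false

namespace Fermat.Agent.Lib.FrobDensity

open NumberField Ideal Filter Topology
open scoped nonZeroDivisors
open Fermat.Agent.S14.Analytic

section

variable (M : Type*) [Field M] [NumberField M]

/-- `term` as a monoid homomorphism. -/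
noncomputable def termHom (s : ℝ) : (Ideal (𝓞 M))⁰ →* ℝ where
  toFun := term M s
  map_one' := term_one M s
  map_mul' := term_mul M s

@[simp] theorem termHom_apply (s : ℝ) (I : (Ideal (𝓞 M))⁰) : termHom M s I = term M s I := rfl

/-- the set of nonzero prime ideals of norm `ℓ`. -/
def primesOfNorm (ℓ : ℕ) : Set (Ideal (𝓞 M))⁰ :=
  {q | (q : Ideal (𝓞 M)).IsPrime ∧ absNorm (q : Ideal (𝓞 M)) = ℓ}

theorem finite_primesOfNorm (ℓ : ℕ) : (primesOfNorm M ℓ).Finite := by
  have h : Finite {I : (Ideal (𝓞 M))⁰ // absNorm (I : Ideal (𝓞 M)) = ℓ} := finite_fiber M ℓ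
  have h' : {I : (Ideal (𝓞 M))⁰ | absNorm (I : Ideal (𝓞 M)) = ℓ}.Finite := h
  exact h'.subset (fun q hq => hq.2)

theorem ncard_primesOfNorm {ℓ : ℕ} (hℓ : ℓ ≠ 0) : (primesOfNorm M ℓ).ncard = primeCount M ℓ := by
  unfold primeCount
  rw [← Nat.card_coe_set_eq]
  refine Nat.card_congr ⟨fun q => ⟨q.1.1, q.2⟩, fun q => ⟨⟨q.1, ?_⟩, q.2⟩,
    fun _ => rfl, fun _ => rfl⟩
  refine mem_nonZeroDivisors_iff_ne_zero.mpr (fun h => hℓ ?_)
  have := q.2.2
  rw [h] at this
  simpa using this.symm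

/-- Euler product inequality for a finite set of primes. -/
theorem sum_term_le_log_zetaSum {s : ℝ} (hs : 1 < s) (T : Finset (Ideal (𝓞 M))⁰)
    (hT : ∀ q ∈ T, (q : Ideal (𝓞 M)).IsPrime) :
    ∑ q ∈ T, term M s q ≤ Real.log (zetaSum M s) := by
  classical
  have hsum : Summable fun I ↦ ‖termHom M s I‖ := by
    refine (summable_term M hs).congr fun I => ?_
    rw [termHom_apply, Real.norm_of_nonneg (term_pos M s I).le]
  have h := prod_one_sub_mul_tsum_real M (termHom M s) hsum T hT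
  have hsv := summable_sieve_ideal_real M (termHom M s) hsum T
  have hone : (1 : ℝ) ≤ ∑' I : (Ideal (𝓞 M))⁰,
      if ∀ q ∈ T, ¬ (q ∣ I) then termHom M s I else 0 := by
    have h1 : ∀ q ∈ T, ¬ (q ∣ (1 : (Ideal (𝓞 M))⁰)) := by
      intro q hq hd
      have hu : IsUnit q := isUnit_of_dvd_one hd
      have hu' : IsUnit (q : Ideal (𝓞 M)) := hu.map (Submonoid.subtype _)
      exact (hT q hq).ne_top (Ideal.isUnit_iff.mp hu')
    have := hsv.le_tsum (1 : (Ideal (𝓞 M))⁰) (fun j _ => by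
      split_ifs
      · exact (term_pos M s j).le
      · exact le_rfl)
    rw [if_pos h1, map_one] at this
    exact this
  have hz : zetaSum M s = ∑' I, termHom M s I := rfl
  rw [← hz] at h
  have hprod : ∏ q ∈ T, (1 - termHom M s q) ≤ Real.exp (- ∑ q ∈ T, term M s q) := by
    rw [← Finset.sum_neg_distrib, Real.exp_sum]
    refine Finset.prod_le_prod (fun q hq => ?_) (fun q _ => ?_)
    · have := term_le_half M hs.le q (hT q hq).ne_top
      rw [termHom_apply]
      linarith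
    · rw [termHom_apply]
      exact Real.one_sub_le_exp_neg _
  have hzpos : 0 ≤ zetaSum M s := zetaSum_nonneg M s
  have h2 : (1 : ℝ) ≤ Real.exp (- ∑ q ∈ T, term M s q) * zetaSum M s :=
    hone.trans (h ▸ mul_le_mul_of_nonneg_right hprod hzpos)
  have hzpos' : 0 < zetaSum M s := by
    rcases hzpos.eq_or_lt with h0 | h0
    · rw [← h0, mul_zero] at h2
      linarith
    · exact h0
  rw [Real.le_log_iff_exp_le hzpos']
  rw [Real.exp_neg] at h2
  have hepos := Real.exp_pos (∑ q ∈ T, term M s q)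
  have := mul_le_mul_of_nonneg_left h2 hepos.le
  rwa [mul_one, ← mul_assoc, mul_inv_cancel₀ hepos.ne', one_mul] at this

end

theorem sum_primeCount_le_log_zetaSum (M : Type*) [Field M] [NumberField M] {s : ℝ} (hs : 1 < s)
    (F : Finset ℕ) (hF : ∀ ℓ ∈ F, ℓ.Prime) :
    ∑ ℓ ∈ F, (primeCount M ℓ : ℝ) * (ℓ : ℝ) ^ (-s) ≤ Real.log (zetaSum M s) := by
  classical
  set T : Finset (Ideal (𝓞 M))⁰ := F.biUnion fun ℓ => (finite_primesOfNorm M ℓ).toFinset with hTdef
  have hT : ∀ q ∈ T, (q : Ideal (𝓞 M)).IsPrime := by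
    intro q hq
    obtain ⟨ℓ, _, hq⟩ := Finset.mem_biUnion.mp hq
    exact ((finite_primesOfNorm M ℓ).mem_toFinset.mp hq).1
  have hdisj : Set.PairwiseDisjoint (↑F : Set ℕ)
      (fun ℓ => (finite_primesOfNorm M ℓ).toFinset) := by
    intro a _ b _ hab
    refine Finset.disjoint_left.mpr fun q hqa hqb => hab ?_
    rw [← ((finite_primesOfNorm M a).mem_toFinset.mp hqa).2,
      ← ((finite_primesOfNorm M b).mem_toFinset.mp hqb).2]
  have hsum : ∑ q ∈ T, term M s q = ∑ ℓ ∈ F, (primeCount M ℓ : ℝ) * (ℓ : ℝ) ^ (-s) := by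
    rw [hTdef, Finset.sum_biUnion hdisj]
    refine Finset.sum_congr rfl fun ℓ hℓ => ?_
    have h1 : ∀ q ∈ (finite_primesOfNorm M ℓ).toFinset, term M s q = (ℓ : ℝ) ^ (-s) := by
      intro q hq
      unfold term
      rw [((finite_primesOfNorm M ℓ).mem_toFinset.mp hq).2]
    rw [Finset.sum_congr rfl h1, Finset.sum_const, nsmul_eq_mul,
      ← ncard_primesOfNorm M (hF ℓ hℓ).ne_zero, Set.ncard_eq_toFinset_card _ (finite_primesOfNorm M ℓ)]
  rw [← hsum]
  exact sum_term_le_log_zetaSum M hs T hT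

end Fermat.Agent.Lib.FrobDensity
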