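import Fermat.Agent.Lib.FrobDensity.AnalyticCoreAbs
import Fermat.Agent.Lib.FrobDensity.Upper
import Fermat.Agent.Lib.FrobDensity.Lower
import Fermat.Agent.Lib.FrobDensity.LogAsymp

/-!
# Frobenius density theorem: the analytic core
-/

set_option autoImplicit false

namespace Fermat.Agent.Lib.FrobDensity

open NumberField Ideal Filter Topology
open Fermat.Agent.S14.Analytic (term zetaSum)

universe u

/-- ANALYTIC CORE: an integer combination of the prime counting functions of number fields with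
positive total weight cannot vanish at almost all primes. -/
theorem exists_prime_sum_primeCount_ne_zero {ι : Type*} (D : Finset ι) (c : ι → ℤ)
    (hc : 0 < ∑ d ∈ D, c d) (M : ι → Type u) [∀ d, Field (M d)] [∀ d, NumberField (M d)]
    (S : Finset ℕ) :
    ∃ ℓ : ℕ, ℓ.Prime ∧ ℓ ∉ S ∧ ∑ d ∈ D, c d * (primeCount (M d) ℓ : ℤ) ≠ 0 := by
  obtain ⟨ℓ, hℓ, hℓS, hne⟩ := AnalyticCoreAbs.core D c hc
    (fun d ℓ => (primeCount (M d) ℓ : ℝ)) (fun d s => Real.log (zetaSum (M d) s))
    (fun d _ hs F hF => sum_primeCount_le_log_zetaSum (M d) hs F hF)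
    (fun d => exists_log_zetaSum_le (M d))
    (fun d => exists_abs_log_zetaSum_sub_le (M d)) S
  refine ⟨ℓ, hℓ, hℓS, fun h0 => hne ?_⟩
  have := congrArg (fun z : ℤ => (z : ℝ)) h0
  simpa using this

end Fermat.Agent.Lib.FrobDensity
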