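import Mathlib

/-!
# Frobenius density theorem: abstract form of the analytic core

Purely real-analytic statement: `N d ℓ` plays the role of the prime counting function of the
`d`-th field and `Z d s` the role of `log ζ_d(s)`.
-/

set_option autoImplicit false

namespace Fermat.Agent.Lib.FrobDensity.AnalyticCoreAbs

open Filter Topology

lemma tendsto_log_one_div_sub :
    Tendsto (fun s : ℝ => Real.log (1 / (s - 1))) (𝓝[>] (1 : ℝ)) atTop := by
  have h1 : Tendsto (fun s : ℝ => s - 1) (𝓝[>] (1 : ℝ)) (𝓝[>] (0 : ℝ)) := by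
    refine tendsto_nhdsWithin_iff.mpr ⟨?_, ?_⟩
    · have : Tendsto (fun s : ℝ => s - 1) (𝓝 (1 : ℝ)) (𝓝 (1 - 1)) :=
        (continuous_id.sub continuous_const).tendsto 1
      simpa using this.mono_left nhdsWithin_le_nhds
    · filter_upwards [self_mem_nhdsWithin] with s hs
      simpa using hs
  have h2 : Tendsto (fun s : ℝ => (s - 1)⁻¹) (𝓝[>] (1 : ℝ)) atTop :=
    tendsto_inv_nhdsGT_zero.comp h1
  have h3 := Real.tendsto_log_atTop.comp h2
  simpa [Function.comp_def, one_div] using h3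

theorem core {ι : Type*} (D : Finset ι) (c : ι → ℤ) (hc : 0 < ∑ d ∈ D, c d)
    (N : ι → ℕ → ℝ) (Z : ι → ℝ → ℝ)
    (h1 : ∀ d, ∀ s : ℝ, 1 < s → ∀ F : Finset ℕ, (∀ ℓ ∈ F, ℓ.Prime) →
      ∑ ℓ ∈ F, N d ℓ * (ℓ : ℝ) ^ (-s) ≤ Z d s)
    (h2 : ∀ d, ∃ B : ℝ, ∀ s : ℝ, 1 < s → ∃ F₀ : Finset ℕ, ∀ F : Finset ℕ, F₀ ⊆ F →
      Z d s ≤ ∑ ℓ ∈ F.filter Nat.Prime, N d ℓ * (ℓ : ℝ) ^ (-s) + B)
    (h3 : ∀ d, ∃ B : ℝ, ∀ᶠ s in 𝓝[>] (1 : ℝ), |Z d s - Real.log (1 / (s - 1))| ≤ B)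
    (S : Finset ℕ) :
    ∃ ℓ : ℕ, ℓ.Prime ∧ ℓ ∉ S ∧ ∑ d ∈ D, (c d : ℝ) * N d ℓ ≠ 0 := by
  classical
  by_contra hcon
  push Not at hcon
  choose B2 hB2 using h2
  choose B3 hB3 using h3
  set w : ℕ → ℝ := fun ℓ => ∑ d ∈ D, (c d : ℝ) * N d ℓ with hw
  set B0 : ℝ := ∑ ℓ ∈ S, |w ℓ| with hB0
  set C : ℝ := ∑ d ∈ D, |(c d : ℝ)| * (|B2 d| + B3 d) with hC
  set σ : ℝ := ((∑ d ∈ D, c d : ℤ) : ℝ) with hσ
  have hσpos : 0 < σ := by rw [hσ]; exact_mod_cast hc
  -- main inequality for `s` close to `1`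
  have hmain : ∀ᶠ s in 𝓝[>] (1 : ℝ), σ * Real.log (1 / (s - 1)) ≤ B0 + C := by
    have hall : ∀ᶠ s in 𝓝[>] (1 : ℝ), ∀ d ∈ D, |Z d s - Real.log (1 / (s - 1))| ≤ B3 d :=
      (Filter.eventually_all_finset D).mpr fun d _ => hB3 d
    filter_upwards [hall, self_mem_nhdsWithin] with s hs3 hs1
    have hs1 : 1 < s := hs1
    choose F₀ hF₀ using fun d => hB2 d s hs1
    set F : Finset ℕ := S ∪ D.biUnion F₀ with hF
    set P : ι → ℝ := fun d => ∑ ℓ ∈ F.filter Nat.Prime, N d ℓ * (ℓ : ℝ) ^ (-s) with hP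
    set L : ℝ := Real.log (1 / (s - 1)) with hL
    -- upper bound
    have hupper : ∑ d ∈ D, (c d : ℝ) * P d ≤ B0 := by
      have e : ∑ d ∈ D, (c d : ℝ) * P d = ∑ ℓ ∈ F.filter Nat.Prime, (ℓ : ℝ) ^ (-s) * w ℓ := by
        simp only [hP, hw, Finset.mul_sum]
        rw [Finset.sum_comm]
        refine Finset.sum_congr rfl fun ℓ _ => Finset.sum_congr rfl fun d _ => ?_
        ring
      rw [e]
      calc ∑ ℓ ∈ F.filter Nat.Prime, (ℓ : ℝ) ^ (-s) * w ℓ
          ≤ ∑ ℓ ∈ F.filter Nat.Prime, (if ℓ ∈ S then |w ℓ| else 0) := by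
            refine Finset.sum_le_sum fun ℓ hℓ => ?_
            have hℓp : ℓ.Prime := (Finset.mem_filter.mp hℓ).2
            by_cases hℓS : ℓ ∈ S
            · rw [if_pos hℓS]
              have h0 : 0 ≤ (ℓ : ℝ) ^ (-s) := Real.rpow_nonneg (Nat.cast_nonneg ℓ) _
              have h1' : (ℓ : ℝ) ^ (-s) ≤ 1 := by
                apply Real.rpow_le_one_of_one_le_of_nonpos
                · exact_mod_cast hℓp.one_lt.le
                · linarith
              calc (ℓ : ℝ) ^ (-s) * w ℓ ≤ (ℓ : ℝ) ^ (-s) * |w ℓ| :=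
                    mul_le_mul_of_nonneg_left (le_abs_self _) h0
                _ ≤ 1 * |w ℓ| := mul_le_mul_of_nonneg_right h1' (abs_nonneg _)
                _ = |w ℓ| := one_mul _
            · rw [if_neg hℓS, show w ℓ = 0 from hcon ℓ hℓp hℓS, mul_zero]
        _ ≤ ∑ ℓ ∈ F, (if ℓ ∈ S then |w ℓ| else 0) := by
            refine Finset.sum_le_sum_of_subset_of_nonneg (Finset.filter_subset _ _) ?_
            intro ℓ _ _
            split_ifs
            · exact abs_nonneg _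
            · exact le_rfl
        _ = ∑ ℓ ∈ S, |w ℓ| := by
            rw [← Finset.sum_filter]
            congr 1
            ext ℓ
            simp only [Finset.mem_filter, hF, Finset.mem_union]
            tauto
    -- lower bound
    have hlower : σ * L - C ≤ ∑ d ∈ D, (c d : ℝ) * P d := by
      have e : σ * L - C = ∑ d ∈ D, ((c d : ℝ) * L - |(c d : ℝ)| * (|B2 d| + B3 d)) := by
        rw [Finset.sum_sub_distrib, ← Finset.sum_mul, hσ, hC]
        push_cast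
        ring
      rw [e]
      refine Finset.sum_le_sum fun d hd => ?_
      have hsub : F₀ d ⊆ F := by
        intro ℓ hℓ
        rw [hF]
        exact Finset.mem_union_right _ (Finset.mem_biUnion.mpr ⟨d, hd, hℓ⟩)
      have hlow : Z d s ≤ P d + B2 d := hF₀ d F hsub
      have hup : P d ≤ Z d s := h1 d s hs1 _ fun ℓ hℓ => (Finset.mem_filter.mp hℓ).2
      have h3' := abs_le.mp (hs3 d hd)
      have hB2 : B2 d ≤ |B2 d| := le_abs_self _
      have hB2' : 0 ≤ |B2 d| := abs_nonneg _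
      rcases le_or_gt 0 (c d : ℝ) with hcd | hcd
      · rw [abs_of_nonneg hcd]
        have : L - (|B2 d| + B3 d) ≤ P d := by linarith [h3'.1]
        nlinarith [mul_le_mul_of_nonneg_left this hcd]
      · rw [abs_of_neg hcd]
        have : P d ≤ L + (|B2 d| + B3 d) := by linarith [h3'.2]
        nlinarith [mul_le_mul_of_nonpos_left this hcd.le]
    linarith
  have htend := tendsto_log_one_div_sub
  have hbig : ∀ᶠ s in 𝓝[>] (1 : ℝ), (B0 + C) / σ < Real.log (1 / (s - 1)) :=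
    htend.eventually_gt_atTop _
  obtain ⟨s, hs1, hs2⟩ := (hmain.and hbig).exists
  rw [div_lt_iff₀ hσpos] at hs2
  linarith

end Fermat.Agent.Lib.FrobDensity.AnalyticCoreAbs
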