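import Mathlib
import Fermat.Agent.Lib.Frobenius

/-!
# Frobenius density theorem, block F9: bridge between number fields and `ℚ̄`
-/

set_option autoImplicit false
set_option linter.style.haveILetI false

namespace Fermat.Agent.Lib.FrobDensity

open NumberField Ideal
open scoped Pointwise

/-- A Frobenius element (prelude sense) acts as `x ↦ x ^ ℓ` modulo the nonunits of `A`. -/
lemma frob_sub_pow_mem_nonunits (A : ValuationSubring (AlgebraicClosure ℚ))
    (φ : AlgebraicClosure ℚ ≃ₐ[ℚ] AlgebraicClosure ℚ) (ℓ : ℕ) (h : A.IsFrobeniusAt φ ℓ)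
    (x : AlgebraicClosure ℚ) (hx : x ∈ A) : φ x - x ^ ℓ ∈ A.nonunits := by
  have h1 := h.smul_residue_eq (IsLocalRing.residue A ⟨x, hx⟩)
  rw [← IsLocalRing.ResidueField.residue_smul, ← map_pow, ← sub_eq_zero, ← map_sub,
    IsLocalRing.residue_eq_zero_iff] at h1
  rw [ValuationSubring.mem_nonunits_iff_exists_mem_maximalIdeal]
  exact ⟨_, h1⟩

attribute [local instance] Ideal.Quotient.field in
/-- Abstract part: an element acting as `x ↦ x ^ ℓ` modulo `P` generates the stabilizer of `P`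
when the inertia group is trivial. -/
theorem stabilizer_eq_zpowers_of_frob (E : Type*) [Field E] [NumberField E] [IsGalois ℚ E]
    (ℓ : ℕ) (hℓ : ℓ.Prime) (P : Ideal (𝓞 E)) (hP : P.IsPrime) (hℓP : (ℓ : 𝓞 E) ∈ P)
    (hI : Ideal.inertia (E ≃ₐ[ℚ] E) P = ⊥) (f : E ≃ₐ[ℚ] E)
    (hf : ∀ x : 𝓞 E, f • x - x ^ ℓ ∈ P) :
    MulAction.stabilizer (E ≃ₐ[ℚ] E) P = Subgroup.zpowers f := by
  classical
  haveI : Fact ℓ.Prime := ⟨hℓ⟩
  have hPne : P ≠ ⊥ := by
    intro h
    rw [h, Ideal.mem_bot] at hℓP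
    exact hℓ.ne_zero (by exact_mod_cast hℓP)
  haveI hPmax : P.IsMaximal := hP.isMaximal hPne
  let p : Ideal ℤ := Ideal.span {(ℓ : ℤ)}
  haveI hpmax : p.IsMaximal := by
    have : Prime (ℓ : ℤ) := Nat.prime_iff_prime_int.mp hℓ
    exact PrincipalIdealRing.isMaximal_of_irreducible this.irreducible
  haveI hLO : P.LiesOver p := by
    constructor
    apply hpmax.eq_of_le
    · exact (Ideal.comap_isPrime (algebraMap ℤ (𝓞 E)) P).ne_top
    · rw [Ideal.span_le]
      intro y hy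
      rw [Set.mem_singleton_iff] at hy
      subst hy
      simpa [Ideal.under, Ideal.mem_comap] using hℓP
  -- powers of `f`
  have hfpow : ∀ (i : ℕ) (x : 𝓞 E), (f ^ i) • x - x ^ (ℓ ^ i) ∈ P := by
    intro i
    induction i with
    | zero => intro x; simp
    | succ i ih =>
      intro x
      have h1 := ih (f • x)
      have h2 : (f • x) ^ (ℓ ^ i) - (x ^ ℓ) ^ (ℓ ^ i) ∈ P :=
        Ideal.mem_of_dvd P (sub_dvd_pow_sub_pow _ _ _) (hf x)
      have h3 : (f ^ (i + 1)) • x - x ^ (ℓ ^ (i + 1)) =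
          ((f ^ i) • (f • x) - (f • x) ^ (ℓ ^ i)) + ((f • x) ^ (ℓ ^ i) - (x ^ ℓ) ^ (ℓ ^ i)) := by
        rw [pow_succ, mul_smul, ← pow_mul, pow_succ' ℓ i]
        ring
      rw [h3]
      exact P.add_mem h1 h2
  have hfstab : f ∈ MulAction.stabilizer (E ≃ₐ[ℚ] E) P := by
    rw [MulAction.mem_stabilizer_iff]
    have hle : P ≤ f⁻¹ • P := by
      intro x hx
      rw [Ideal.mem_inv_pointwise_smul_iff]
      have : f • x = (f • x - x ^ ℓ) + x ^ ℓ := by ring
      rw [this]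
      exact P.add_mem (hf x) (P.pow_mem_of_mem hx ℓ hℓ.pos)
    have hne : f⁻¹ • P ≠ ⊤ := by
      intro h
      have h1 : (1 : 𝓞 E) ∈ f⁻¹ • P := by rw [h]; exact Submodule.mem_top
      rw [Ideal.mem_inv_pointwise_smul_iff, smul_one] at h1
      exact hPmax.ne_top ((Ideal.eq_top_iff_one _).2 h1)
    have := hPmax.eq_of_le hne hle
    calc f • P = f • (f⁻¹ • P) := by rw [← this]
      _ = P := smul_inv_smul _ _
  apply le_antisymm
  · intro τ hτ
    let g := Ideal.Quotient.stabilizerHom P p (E ≃ₐ[ℚ] E) ⟨τ, hτ⟩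
    haveI : CharP (ℤ ⧸ p) ℓ := ringChar.of_eq <| Int.ringChar_idealQuot ℓ
    haveI : Finite (𝓞 E ⧸ P) := Ring.HasFiniteQuotients.finiteQuotient hPne
    obtain ⟨i, hi⟩ := FiniteField.exists_forall_apply_eq_pow (ℤ ⧸ p) ℓ (𝓞 E ⧸ P) g
    have hcard : Nat.card (ℤ ⧸ p) = ℓ := by
      simpa using Int.card_ideal_quot ℓ
    rw [hcard] at hi
    have hτ' : ∀ x : 𝓞 E, τ • x - x ^ (ℓ ^ i) ∈ P := by
      intro x
      have := hi (Ideal.Quotient.mk P x)
      rw [← map_pow] at this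
      rw [← Ideal.Quotient.eq]
      exact this
    have hin : τ * (f ^ i)⁻¹ ∈ Ideal.inertia (E ≃ₐ[ℚ] E) P := by
      intro x
      have h1 := hτ' ((f ^ i)⁻¹ • x)
      have h2 := hfpow i ((f ^ i)⁻¹ • x)
      rw [smul_inv_smul] at h2
      have : (τ * (f ^ i)⁻¹) • x - x =
          (τ • ((f ^ i)⁻¹ • x) - ((f ^ i)⁻¹ • x) ^ (ℓ ^ i)) -
            (x - ((f ^ i)⁻¹ • x) ^ (ℓ ^ i)) := by
        rw [mul_smul]; ring
      rw [this]
      exact P.sub_mem h1 h2
    rw [hI, Subgroup.mem_bot, mul_inv_eq_one] at hin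
    rw [hin]
    exact Subgroup.pow_mem _ (Subgroup.mem_zpowers f) i
  · rw [Subgroup.zpowers_le]
    exact hfstab

theorem exists_frobenius_of_inertia_eq_bot
    (E : IntermediateField ℚ (AlgebraicClosure ℚ)) [NumberField E] [IsGalois ℚ E]
    (ℓ : ℕ) (hℓ : ℓ.Prime) (P : Ideal (𝓞 E)) (hP : P.IsPrime) (hℓP : (ℓ : 𝓞 E) ∈ P)
    (hI : Ideal.inertia (E ≃ₐ[ℚ] E) P = ⊥) :
    ∃ (A : ValuationSubring (AlgebraicClosure ℚ))
      (φ : AlgebraicClosure ℚ ≃ₐ[ℚ] AlgebraicClosure ℚ),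
      A.LiesOverPrime ℓ ∧ A.IsFrobeniusAt φ ℓ ∧
      MulAction.stabilizer (E ≃ₐ[ℚ] E) P =
        Subgroup.zpowers (AlgEquiv.restrictNormalHom E φ) := by
  classical
  have hPne : P ≠ ⊥ := by
    intro h
    rw [h, Ideal.mem_bot] at hℓP
    exact hℓ.ne_zero (by exact_mod_cast hℓP)
  haveI hPmax : P.IsMaximal := hP.isMaximal hPne
  let ι : 𝓞 E →+* AlgebraicClosure ℚ :=
    (algebraMap E (AlgebraicClosure ℚ)).comp (algebraMap (𝓞 E) E)
  have hιinj : Function.Injective ι :=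
    (algebraMap E (AlgebraicClosure ℚ)).injective.comp (RingOfIntegers.coe_injective)
  let R : Subring (AlgebraicClosure ℚ) := ι.range
  let e : 𝓞 E →+* R := ι.rangeRestrict
  have hebij : Function.Bijective e :=
    ⟨fun x y h => hιinj (show ι x = ι y from congrArg (Subtype.val : R → AlgebraicClosure ℚ) h),
      ι.rangeRestrict_surjective⟩
  have hIne : P.map e ≠ ⊤ := by
    intro h
    have h1 := Ideal.comap_map_of_bijective e hebij (I := P)
    rw [h, Ideal.comap_top] at h1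
    exact hPmax.ne_top h1.symm
  obtain ⟨A, hRA, hA⟩ := Ideal.image_subset_nonunits_valuationSubring (P.map e) hIne
  have hPA : ∀ x ∈ P, ι x ∈ A.nonunits := fun x hx => hA ⟨e x, Ideal.mem_map_of_mem e hx, rfl⟩
  have hιA : ∀ x : 𝓞 E, ι x ∈ A := fun x => hRA ⟨x, rfl⟩
  have hLies : A.LiesOverPrime ℓ := by
    have := hPA _ hℓP
    simpa [ValuationSubring.LiesOverPrime] using this
  -- converse
  let ιA : 𝓞 E →+* A :=
    { toFun := fun x => ⟨ι x, hιA x⟩
      map_one' := Subtype.ext (map_one ι)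
      map_mul' := fun x y => Subtype.ext (map_mul ι x y)
      map_zero' := Subtype.ext (map_zero ι)
      map_add' := fun x y => Subtype.ext (map_add ι x y) }
  let Q : Ideal (𝓞 E) := (IsLocalRing.maximalIdeal A).comap ιA
  have hQmem : ∀ x : 𝓞 E, x ∈ Q ↔ ι x ∈ A.nonunits := by
    intro x
    rw [ValuationSubring.mem_nonunits_iff_exists_mem_maximalIdeal]
    constructor
    · intro h
      exact ⟨hιA x, h⟩
    · rintro ⟨_, h⟩
      exact h
  have hQne : Q ≠ ⊤ := (Ideal.comap_isPrime ιA _).ne_top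
  have hPQ : P = Q := hPmax.eq_of_le hQne (fun x hx => (hQmem x).2 (hPA x hx))
  obtain ⟨φ, hφ⟩ := Fermat.Agent.Lib.Frobenius.exists_isFrobeniusAt A ℓ hℓ hLies
  refine ⟨A, φ, hLies, hφ, ?_⟩
  apply stabilizer_eq_zpowers_of_frob E ℓ hℓ P hP hℓP hI
  intro x
  rw [hPQ, hQmem]
  have h1 : ι ((AlgEquiv.restrictNormalHom E φ) • x) = φ (ι x) :=
    AlgEquiv.restrictNormal_commutes φ E (x : E)
  rw [map_sub, map_pow, h1]
  exact frob_sub_pow_mem_nonunits A φ ℓ hφ (ι x) (hιA x)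

end Fermat.Agent.Lib.FrobDensity
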