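import Fermat.Agent.Lib.FrobDensity.Defs

/-!
# Frobenius density theorem, block F5: counting degree one primes of a fixed field

`primeCount (fixedField H) l * |H| = sum over the primes P of E above l with Stab P ≤ H of |Stab P|`
for `l` unramified in the Galois number field `E`.
-/

set_option autoImplicit false

namespace Fermat.Agent.Lib.FrobDensity

open NumberField Ideal
open scoped Pointwise

section abstract
variable {A B C G : Type*} [CommRing A] [CommRing B] [CommRing C] [Algebra A B] [Algebra A C]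
  [Algebra B C] [IsScalarTower A B C]
  [Group G] [MulSemiringAction G C] (H : Subgroup G)

theorem stabilizer_subgroup_eq (P : Ideal C) :
    MulAction.stabilizer H P = (MulAction.stabilizer G P).subgroupOf H := by
  ext h
  simp only [MulAction.mem_stabilizer_iff, Subgroup.mem_subgroupOf]
  rfl

theorem inertia_subgroup_eq_bot (P : Ideal C) (hin : Ideal.inertia G P = ⊥) :
    Ideal.inertia H P = ⊥ := by
  rw [eq_bot_iff]
  intro h hh
  have : (h : G) ∈ Ideal.inertia G P := hh
  rw [hin, Subgroup.mem_bot] at this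
  rw [Subgroup.mem_bot]
  exact Subtype.ext this

theorem card_stabilizer_subgroup (P : Ideal C) :
    Nat.card (MulAction.stabilizer H P) = Nat.card (MulAction.stabilizer G P ⊓ H : Subgroup G) := by
  rw [stabilizer_subgroup_eq, ← Subgroup.inf_subgroupOf_right]
  exact Nat.card_congr (Subgroup.subgroupOfEquivOfLe inf_le_right).toEquiv

theorem stabilizer_le_iff [Finite G] [IsGaloisGroup G A C] [IsGaloisGroup H B C]
    [Module.Finite B C] (P : Ideal C) [P.IsPrime]
    (hin : Ideal.inertia G P = ⊥)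
    [PerfectField (P.under A).ResidueField] [PerfectField (P.under B).ResidueField] :
    MulAction.stabilizer G P ≤ H ↔ (P.under B).inertiaDeg A = 1 := by
  have h1 := card_stabilizer_eq_card_inertia_mul_finrank (G := G) (P.under A) P
  have h2 := card_stabilizer_eq_card_inertia_mul_finrank (G := H) (P.under B) P
  rw [hin] at h1
  rw [inertia_subgroup_eq_bot H P hin] at h2
  replace h2 := (card_stabilizer_subgroup H P).symm.trans h2
  simp only [Subgroup.card_bot, one_mul] at h1 h2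
  have h3 : P.inertiaDeg A = (P.under B).inertiaDeg A * P.inertiaDeg B :=
    inertiaDeg_tower (P.under B) P
  have h4 : 0 < P.inertiaDeg B := inertiaDeg_pos P B
  constructor
  · intro hle
    rw [inf_eq_left.2 hle, h1, h3] at h2
    have : (P.under B).inertiaDeg A * P.inertiaDeg B = 1 * P.inertiaDeg B := by rw [h2, one_mul]
    exact Nat.eq_of_mul_eq_mul_right h4 this
  · intro h
    rw [h, one_mul] at h3
    have : (MulAction.stabilizer G P ⊓ H : Subgroup G) = MulAction.stabilizer G P :=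
      Subgroup.eq_of_le_of_card_ge inf_le_left (by rw [h1, h2, h3])
    exact inf_eq_left.1 this

end abstract

theorem sum_card_stabilizer_primesOver {B C K : Type*} [CommRing B] [CommRing C] [Algebra B C]
    [Group K] [Finite K] [MulSemiringAction K C] [IsGaloisGroup K B C] (q : Ideal B)
    (s : Finset (Ideal C)) (hs : (s : Set (Ideal C)) = q.primesOver C) (hne : s.Nonempty) :
    ∑ P ∈ s, Nat.card (MulAction.stabilizer K P) = Nat.card K := by
  have h : ∀ P ∈ s, s.card * Nat.card (MulAction.stabilizer K P) = Nat.card K := by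
    intro P hP
    have hP' : P ∈ q.primesOver C := by rw [← hs]; exact hP
    have : P.IsPrime := hP'.1
    have : P.LiesOver q := hP'.2
    have h1 : MulAction.orbit K P = (s : Set (Ideal C)) := by
      rw [hs]; exact Algebra.IsInvariant.orbit_eq_primesOver B C K q P
    have h2 := Nat.card_congr (MulAction.orbitProdStabilizerEquivGroup K P)
    rw [Nat.card_prod, h1] at h2
    simpa using h2
  have hc : 0 < s.card := Finset.card_pos.2 hne
  apply Nat.eq_of_mul_eq_mul_left hc
  rw [Finset.mul_sum, Finset.sum_congr rfl h, Finset.sum_const, smul_eq_mul]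

section
variable (E : Type*) [Field E] [NumberField E] [IsGalois ℚ E] (H : Subgroup (E ≃ₐ[ℚ] E))

theorem isGaloisGroup_fixedField : IsGaloisGroup H (IntermediateField.fixedField H) E :=
  IsGaloisGroup.of_fixedPoints_eq (E ≃ₐ[ℚ] E) ℚ E H _ rfl

theorem isGaloisGroup_ringOfIntegers_fixedField :
    IsGaloisGroup H (𝓞 (IntermediateField.fixedField H)) (𝓞 E) :=
  have := isGaloisGroup_fixedField E H
  IsGaloisGroup.of_isFractionRing H (𝓞 (IntermediateField.fixedField H)) (𝓞 E)
    (IntermediateField.fixedField H) E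

end

open Classical in
theorem primeCount_fixedField_mul_card (E : Type*) [Field E] [NumberField E] [IsGalois ℚ E]
    (H : Subgroup (E ≃ₐ[ℚ] E)) (ℓ : ℕ) (hℓ : ℓ.Prime)
    (hunr : ∀ P : Ideal (𝓞 E), P.IsPrime → (ℓ : 𝓞 E) ∈ P → Ideal.inertia (E ≃ₐ[ℚ] E) P = ⊥) :
    primeCount (IntermediateField.fixedField H) ℓ * Nat.card H =
      ∑ P ∈ (IsDedekindDomain.primesOverFinset (Ideal.span {(ℓ : ℤ)}) (𝓞 E)).filter
          (fun P => MulAction.stabilizer (E ≃ₐ[ℚ] E) P ≤ H),
        Nat.card (MulAction.stabilizer (E ≃ₐ[ℚ] E) P) := by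
  have := isGaloisGroup_ringOfIntegers_fixedField E H
  have hℓ0 : Ideal.span {(ℓ : ℤ)} ≠ ⊥ := by
    simp [hℓ.ne_zero]
  have hmax : (Ideal.span {(ℓ : ℤ)}).IsMaximal :=
    ((Ideal.span_singleton_prime (by exact_mod_cast hℓ.ne_zero)).2
      (Nat.prime_iff_prime_int.1 hℓ)).isMaximal hℓ0
  set M := IntermediateField.fixedField H with hM
  set X := IsDedekindDomain.primesOverFinset (Ideal.span {(ℓ : ℤ)}) (𝓞 E) with hX
  set T := (IsDedekindDomain.primesOverFinset (Ideal.span {(ℓ : ℤ)}) (𝓞 M)).filter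
    (fun q => absNorm q = ℓ) with hT
  -- norm vs inertia degree
  have hnorm : ∀ q : Ideal (𝓞 M), q.IsPrime → q.LiesOver (Ideal.span {(ℓ : ℤ)}) →
      (absNorm q = ℓ ↔ q.inertiaDeg ℤ = 1) := by
    intro q hq hqo
    have hqm : q.IsMaximal := Ideal.IsMaximal.of_liesOver_isMaximal q (Ideal.span {(ℓ : ℤ)})
    rw [absNorm_eq_pow_inertiaDeg' q hℓ, inertiaDeg'_eq_inertiaDeg]
    constructor
    · intro h
      exact Nat.pow_right_injective hℓ.two_le (by simpa using h)
    · intro h
      rw [h, pow_one]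
  have hTmem : ∀ q : Ideal (𝓞 M), q ∈ T ↔ q.IsPrime ∧ absNorm q = ℓ := by
    intro q
    rw [hT, Finset.mem_filter, IsDedekindDomain.mem_primesOverFinset_iff hℓ0]
    constructor
    · rintro ⟨⟨h1, _⟩, h2⟩
      exact ⟨h1, h2⟩
    · rintro ⟨h1, h2⟩
      refine ⟨⟨h1, ⟨?_⟩⟩, h2⟩
      have h3 : (ℓ : 𝓞 M) ∈ q := by
        have := Ideal.absNorm_mem q
        rwa [h2] at this
      refine hmax.eq_of_le (Ideal.IsPrime.under ℤ q).ne_top ?_
      rw [Ideal.span_singleton_le_iff_mem, Ideal.under_def, Ideal.mem_comap]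
      simpa using h3
  have hTcard : primeCount M ℓ = T.card := Nat.subtype_card T hTmem
  have hXmem : ∀ P : Ideal (𝓞 E), P ∈ X ↔ P.IsPrime ∧ P.LiesOver (Ideal.span {(ℓ : ℤ)}) :=
    fun P => IsDedekindDomain.mem_primesOverFinset_iff hℓ0 _
  have key : ∀ P ∈ X, (P.under (𝓞 M)).IsPrime ∧ (P.under (𝓞 M)).LiesOver (Ideal.span {(ℓ : ℤ)}) ∧
      (MulAction.stabilizer (E ≃ₐ[ℚ] E) P ≤ H ↔ absNorm (P.under (𝓞 M)) = ℓ) := by
    intro P hP
    obtain ⟨hPp, hPo⟩ := (hXmem P).1 hP
    have hmem : (ℓ : 𝓞 E) ∈ P := by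
      have h1 : (ℓ : ℤ) ∈ Ideal.span {(ℓ : ℤ)} := Ideal.subset_span rfl
      rw [hPo.over, Ideal.mem_comap] at h1
      simpa using h1
    have hq : (P.under (𝓞 M)).IsPrime := inferInstance
    have hqo : (P.under (𝓞 M)).LiesOver (Ideal.span {(ℓ : ℤ)}) :=
      LiesOver.tower_bot P (P.under (𝓞 M)) (Ideal.span {(ℓ : ℤ)})
    refine ⟨hq, hqo, ?_⟩
    rw [hnorm _ hq hqo]
    exact stabilizer_le_iff (A := ℤ) (B := 𝓞 M) H P (hunr P hPp hmem)
  rw [hTcard, ← Finset.sum_fiberwise_of_maps_to (g := fun P => P.under (𝓞 M)) (t := T)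
    (fun P hP => by
      rw [Finset.mem_filter] at hP
      obtain ⟨h1, h2, h3⟩ := key P hP.1
      exact (hTmem _).2 ⟨h1, h3.1 hP.2⟩),
    Finset.card_eq_sum_ones, Finset.sum_mul]
  refine Finset.sum_congr rfl fun q hq => ?_
  obtain ⟨hqp, hqn⟩ := (hTmem q).1 hq
  have hqo : q.LiesOver (Ideal.span {(ℓ : ℤ)}) :=
    ((IsDedekindDomain.mem_primesOverFinset_iff hℓ0 _).1 (Finset.mem_filter.1 hq).1).2
  have hqm : q.IsMaximal := Ideal.IsMaximal.of_liesOver_isMaximal q (Ideal.span {(ℓ : ℤ)})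
  have hq0 : q ≠ ⊥ := by
    rintro rfl
    rw [Ideal.absNorm_bot] at hqn
    exact hℓ.ne_zero hqn.symm
  have hfib : (X.filter (fun P => MulAction.stabilizer (E ≃ₐ[ℚ] E) P ≤ H)).filter
      (fun P => P.under (𝓞 M) = q) = IsDedekindDomain.primesOverFinset q (𝓞 E) := by
    ext P
    rw [Finset.mem_filter, Finset.mem_filter, IsDedekindDomain.mem_primesOverFinset_iff hq0]
    constructor
    · rintro ⟨⟨h1, h2⟩, h3⟩
      exact ⟨((hXmem P).1 h1).1, ⟨h3.symm⟩⟩
    · rintro ⟨h1, h2⟩
      have hPX : P ∈ X := (hXmem P).2 ⟨h1, LiesOver.trans P q _⟩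
      have h3 : P.under (𝓞 M) = q := h2.over.symm
      refine ⟨⟨hPX, ?_⟩, h3⟩
      rw [(key P hPX).2.2, h3, hqn]
  rw [hfib, one_mul, ← sum_card_stabilizer_primesOver (K := H) q
    (IsDedekindDomain.primesOverFinset q (𝓞 E)) (IsDedekindDomain.coe_primesOverFinset hq0 _)
    (by
      obtain ⟨⟨P, hP⟩⟩ := q.nonempty_primesOver (S := 𝓞 E)
      exact ⟨P, (IsDedekindDomain.mem_primesOverFinset_iff hq0 _).2 hP⟩)]
  refine Finset.sum_congr rfl fun P hP => ?_
  rw [← hfib, Finset.mem_filter, Finset.mem_filter] at hP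
  refine (card_stabilizer_subgroup H P).trans ?_
  rw [inf_eq_left.2 hP.1.2]

end Fermat.Agent.Lib.FrobDensity
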