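import Mathlib
import Fermat.Agent.S14.Analytic.Defs

/-!
# Frobenius density theorem (weak Chebotarev): definitions
-/

set_option autoImplicit false

namespace Fermat.Agent.Lib.FrobDensity

open NumberField Ideal

/-- number of prime ideals of `𝓞 M` of absolute norm exactly `ℓ`. -/
noncomputable def primeCount (M : Type*) [Field M] [NumberField M] (ℓ : ℕ) : ℕ :=
  Nat.card {q : Ideal (𝓞 M) // q.IsPrime ∧ absNorm q = ℓ}

end Fermat.Agent.Lib.FrobDensity
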