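import Mathlib

/-!
# Frobenius density theorem: Moebius sums over the subgroups of a cyclic group (block F6)
-/

set_option autoImplicit false

namespace Fermat.Agent.Lib.FrobDensity

/-- `∑_{d ∣ m} μ(d) = [m = 1]`. -/
theorem sum_divisors_moebius_eq_ite (m : ℕ) :
    ∑ d ∈ m.divisors, ArithmeticFunction.moebius d = if m = 1 then (1 : ℤ) else 0 := by
  have h := congrArg (fun f : ArithmeticFunction ℤ => f m) ArithmeticFunction.moebius_mul_coe_zeta
  simp only [ArithmeticFunction.coe_mul_zeta_apply, ArithmeticFunction.one_apply] at h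
  exact h

/-- For `d ∣ orderOf σ`, `σ ^ k` is a power of `σ ^ d` iff `d ∣ k`. -/
theorem pow_mem_zpowers_pow_iff {G : Type*} [Group G] (σ : G) {d : ℕ} (hd : d ∣ orderOf σ)
    (k : ℕ) : σ ^ k ∈ Subgroup.zpowers (σ ^ d) ↔ d ∣ k := by
  constructor
  · intro h
    obtain ⟨j, hj⟩ := Subgroup.mem_zpowers_iff.mp h
    rw [← zpow_natCast, ← zpow_mul, ← zpow_natCast σ k, zpow_eq_zpow_iff_modEq] at hj
    have h1 : (d : ℤ) ∣ (orderOf σ : ℤ) := Int.natCast_dvd_natCast.mpr hd
    have h2 : ((d : ℤ) * j) ≡ (k : ℤ) [ZMOD (d : ℤ)] := hj.of_dvd h1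
    have h3 : (d : ℤ) ∣ (k : ℤ) := by
      exact (Int.ModEq.dvd_iff h2).mp (dvd_mul_right _ _)
    exact Int.natCast_dvd_natCast.mp h3
  · rintro ⟨j, rfl⟩
    rw [pow_mul]
    exact Subgroup.npow_mem_zpowers _ _

open Classical in
theorem sum_moebius_le_zpowers {G : Type*} [Group G] (σ : G) (hσ : IsOfFinOrder σ)
    (D : Subgroup G) :
    ∑ d ∈ (orderOf σ).divisors, ArithmeticFunction.moebius d *
        (if D ≤ Subgroup.zpowers (σ ^ d) then (1 : ℤ) else 0) =
      if D = Subgroup.zpowers σ then 1 else 0 := by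
  have hn : 0 < orderOf σ := hσ.orderOf_pos
  by_cases hD : D ≤ Subgroup.zpowers σ
  · -- `D` is cyclic, generated by some `σ ^ k`
    have : IsCyclic D := by
      have : IsCyclic (Subgroup.zpowers σ) := inferInstance
      exact isCyclic_of_injective (Subgroup.inclusion hD) (Subgroup.inclusion_injective hD)
    obtain ⟨⟨g, hgD⟩, hg⟩ := IsCyclic.exists_generator (α := D)
    have hDg : D = Subgroup.zpowers g := by
      apply le_antisymm
      · intro x hx
        obtain ⟨j, hj⟩ := Subgroup.mem_zpowers_iff.mp (hg ⟨x, hx⟩)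
        have := congrArg Subtype.val hj
        simp only [Subgroup.coe_zpow] at this
        exact Subgroup.mem_zpowers_iff.mpr ⟨j, this⟩
      · exact (Subgroup.zpowers_le).mpr hgD
    obtain ⟨k, hk⟩ : ∃ k : ℕ, σ ^ k = g := by
      have := hσ.mem_powers_iff_mem_zpowers.mpr (hD hgD)
      exact Submonoid.mem_powers_iff _ _ |>.mp this
    subst hk
    have key : ∀ d ∈ (orderOf σ).divisors,
        (D ≤ Subgroup.zpowers (σ ^ d) ↔ d ∈ (Nat.gcd k (orderOf σ)).divisors) := by
      intro d hd
      have hdn : d ∣ orderOf σ := Nat.dvd_of_mem_divisors hd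
      rw [hDg, Subgroup.zpowers_le, pow_mem_zpowers_pow_iff σ hdn, Nat.mem_divisors]
      constructor
      · intro h
        exact ⟨Nat.dvd_gcd h hdn, (Nat.gcd_pos_of_pos_right _ hn).ne'⟩
      · intro h
        exact h.1.trans (Nat.gcd_dvd_left _ _)
    have hsub : (Nat.gcd k (orderOf σ)).divisors ⊆ (orderOf σ).divisors :=
      Nat.divisors_subset_of_dvd hn.ne' (Nat.gcd_dvd_right _ _)
    calc ∑ d ∈ (orderOf σ).divisors, ArithmeticFunction.moebius d *
          (if D ≤ Subgroup.zpowers (σ ^ d) then (1 : ℤ) else 0)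
        = ∑ d ∈ (orderOf σ).divisors,
            (if d ∈ (Nat.gcd k (orderOf σ)).divisors then ArithmeticFunction.moebius d else 0) := by
          refine Finset.sum_congr rfl fun d hd => ?_
          by_cases h : d ∈ (Nat.gcd k (orderOf σ)).divisors
          · rw [if_pos ((key d hd).mpr h), if_pos h, mul_one]
          · rw [if_neg (fun h' => h ((key d hd).mp h')), if_neg h, mul_zero]
      _ = ∑ d ∈ (Nat.gcd k (orderOf σ)).divisors, ArithmeticFunction.moebius d := by
          rw [← Finset.sum_filter]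
          congr 1
          ext d
          simp only [Finset.mem_filter]
          exact ⟨fun h => h.2, fun h => ⟨hsub h, h⟩⟩
      _ = if Nat.gcd k (orderOf σ) = 1 then (1 : ℤ) else 0 := sum_divisors_moebius_eq_ite _
      _ = if D = Subgroup.zpowers σ then 1 else 0 := by
          have : (Nat.gcd k (orderOf σ) = 1) ↔ D = Subgroup.zpowers σ := by
            rw [← mem_zpowers_pow_iff, ← hDg]
            constructor
            · intro h
              exact le_antisymm hD ((Subgroup.zpowers_le).mpr h)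
            · intro h
              rw [h]
              exact Subgroup.mem_zpowers σ
          simp only [this]
  · have h1 : ∀ d : ℕ, ¬ D ≤ Subgroup.zpowers (σ ^ d) := by
      intro d h
      exact hD (h.trans ((Subgroup.zpowers_le).mpr (Subgroup.npow_mem_zpowers σ d)))
    have h2 : D ≠ Subgroup.zpowers σ := fun h => hD h.le
    simp only [h1, if_false, mul_zero, Finset.sum_const_zero, h2]

theorem sum_moebius_mul_card_zpowers {G : Type*} [Group G] (σ : G) (hσ : IsOfFinOrder σ) :
    ∑ d ∈ (orderOf σ).divisors, ArithmeticFunction.moebius d *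
        (Nat.card (Subgroup.zpowers (σ ^ d)) : ℤ) = Nat.totient (orderOf σ) := by
  have hn : 0 < orderOf σ := hσ.orderOf_pos
  have hinv := (ArithmeticFunction.sum_eq_iff_sum_mul_moebius_eq (R := ℤ)
    (f := fun n => (Nat.totient n : ℤ)) (g := fun n => (n : ℤ))).mp (by
      intro n _
      have := Nat.sum_totient n
      exact_mod_cast this) (orderOf σ) hn
  simp only [Int.cast_id] at hinv
  rw [← hinv, Nat.sum_divisorsAntidiagonal (fun x y => (ArithmeticFunction.moebius x : ℤ) * (y : ℤ))]
  refine Finset.sum_congr rfl fun d hd => ?_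
  have hdn : d ∣ orderOf σ := Nat.dvd_of_mem_divisors hd
  rw [Nat.card_zpowers, orderOf_pow_of_dvd (Nat.pos_of_mem_divisors hd).ne' hdn]

end Fermat.Agent.Lib.FrobDensity
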