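import Mathlib

/-!
# Frobenius density theorem, block F7: almost all primes have trivial inertia
-/

set_option autoImplicit false

namespace Fermat.Agent.Lib.FrobDensity

open NumberField Ideal
open scoped Pointwise

/-- a nontrivial automorphism moves some algebraic integer -/
theorem exists_smul_ne_of_ne_one (E : Type*) [Field E] [NumberField E]
    (τ : E ≃ₐ[ℚ] E) (hτ : τ ≠ 1) : ∃ x : 𝓞 E, τ • x - x ≠ 0 := by
  by_contra hcon
  push Not at hcon
  apply hτ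
  ext y
  obtain ⟨a, b, hb, rfl⟩ := IsFractionRing.div_surjective (A := 𝓞 E) y
  have ha : τ (algebraMap (𝓞 E) E a) = algebraMap (𝓞 E) E a := by
    have h := hcon a
    rw [sub_eq_zero] at h
    have h2 := congrArg (algebraMap (𝓞 E) E) h
    rw [algebraMap.smul'] at h2
    exact h2
  have hb' : τ (algebraMap (𝓞 E) E b) = algebraMap (𝓞 E) E b := by
    have h := hcon b
    rw [sub_eq_zero] at h
    have h2 := congrArg (algebraMap (𝓞 E) E) h
    rw [algebraMap.smul'] at h2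
    exact h2
  simp [map_div₀, ha, hb']

theorem exists_finset_inertia_eq_bot (E : Type*) [Field E] [NumberField E] [IsGalois ℚ E] :
    ∃ Bad : Finset ℕ, ∀ ℓ : ℕ, ℓ.Prime → ℓ ∉ Bad → ∀ P : Ideal (𝓞 E), P.IsPrime →
      (ℓ : 𝓞 E) ∈ P → Ideal.inertia (E ≃ₐ[ℚ] E) P = ⊥ := by
  classical
  choose! x hx using exists_smul_ne_of_ne_one E
  set δ : 𝓞 E := ∏ τ ∈ (Finset.univ : Finset (E ≃ₐ[ℚ] E)).filter (fun τ => τ ≠ 1), (τ • x τ - x τ)
    with hδ
  have hδ0 : δ ≠ 0 := by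
    rw [hδ, Finset.prod_ne_zero_iff]
    intro τ hτ
    exact hx τ (Finset.mem_filter.mp hτ).2
  set N : ℕ := absNorm (Ideal.span {δ}) with hN
  have hN0 : N ≠ 0 := by
    rw [hN, Ne, Ideal.absNorm_eq_zero_iff, Ideal.span_singleton_eq_bot]
    exact hδ0
  refine ⟨N.primeFactors, fun ℓ hℓ hℓN P hP hℓP => ?_⟩
  rw [eq_bot_iff]
  intro τ hτ
  rw [Subgroup.mem_bot]
  by_contra hτ1
  have h1 : τ • x τ - x τ ∈ P := hτ (x τ)
  have h2 : δ ∈ P := by
    rw [hδ]
    exact Ideal.mem_of_dvd P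
      (Finset.dvd_prod_of_mem (fun τ => τ • x τ - x τ) (Finset.mem_filter.mpr ⟨Finset.mem_univ _, hτ1⟩)) h1
  have h3 : (N : 𝓞 E) ∈ P := by
    have : (N : 𝓞 E) ∈ Ideal.span {δ} := Ideal.absNorm_mem _
    exact (Ideal.span_singleton_le_iff_mem P |>.mpr h2) this
  have hcop : Nat.Coprime ℓ N := by
    rw [Nat.Prime.coprime_iff_not_dvd hℓ]
    intro hdvd
    exact hℓN (Nat.mem_primeFactors.mpr ⟨hℓ, hdvd, hN0⟩)
  have h4 : (1 : 𝓞 E) ∈ P := by
    have hb := Nat.isCoprime_iff_coprime.mpr hcop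
    obtain ⟨a, b, hab⟩ := hb
    have : ((a * (ℓ : ℤ) + b * (N : ℤ) : ℤ) : 𝓞 E) = 1 := by rw [hab]; simp
    rw [← this]
    push_cast
    exact P.add_mem (P.mul_mem_left _ hℓP) (P.mul_mem_left _ h3)
  exact hP.ne_top ((Ideal.eq_top_iff_one P).mpr h4)

end Fermat.Agent.Lib.FrobDensity
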