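import Fermat.Agent.Lib.FrobDensity.AnalyticCore
import Fermat.Agent.Lib.FrobDensity.Count
import Fermat.Agent.Lib.FrobDensity.Moebius
import Fermat.Agent.Lib.FrobDensity.Unramified

/-!
# Frobenius density theorem, number field form (block F8)
-/

set_option autoImplicit false

namespace Fermat.Agent.Lib.FrobDensity

open NumberField Ideal
open scoped Pointwise

/-- number field form of the theorem -/
theorem exists_prime_stabilizer_eq_zpowers (E : Type*) [Field E] [NumberField E] [IsGalois ℚ E]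
    (σ : E ≃ₐ[ℚ] E) (S : Finset ℕ) :
    ∃ (ℓ : ℕ) (P : Ideal (𝓞 E)), ℓ.Prime ∧ ℓ ∉ S ∧ P.IsPrime ∧ (ℓ : 𝓞 E) ∈ P ∧
      Ideal.inertia (E ≃ₐ[ℚ] E) P = ⊥ ∧
      MulAction.stabilizer (E ≃ₐ[ℚ] E) P = Subgroup.zpowers σ := by
  classical
  obtain ⟨Bad, hBad⟩ := exists_finset_inertia_eq_bot E
  have hσ : IsOfFinOrder σ := isOfFinOrder_of_finite σ
  have hn : 0 < orderOf σ := hσ.orderOf_pos
  let H : ℕ → Subgroup (E ≃ₐ[ℚ] E) := fun d => Subgroup.zpowers (σ ^ d)
  let c : ℕ → ℤ := fun d => ArithmeticFunction.moebius d * (Nat.card (H d) : ℤ)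
  have hc : 0 < ∑ d ∈ (orderOf σ).divisors, c d := by
    have := sum_moebius_mul_card_zpowers σ hσ
    simp only [c, H]
    rw [this]
    exact_mod_cast Nat.totient_pos.2 hn
  obtain ⟨ℓ, hℓ, hℓS, hne⟩ := exists_prime_sum_primeCount_ne_zero (orderOf σ).divisors c hc
    (fun d => ↥(IntermediateField.fixedField (H d))) (S ∪ Bad)
  have hℓS' : ℓ ∉ S := fun h => hℓS (Finset.mem_union_left _ h)
  have hℓB : ℓ ∉ Bad := fun h => hℓS (Finset.mem_union_right _ h)
  have hunr := hBad ℓ hℓ hℓB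
  set X := IsDedekindDomain.primesOverFinset (Ideal.span {(ℓ : ℤ)}) (𝓞 E) with hX
  have key : ∑ d ∈ (orderOf σ).divisors,
      c d * (primeCount (↥(IntermediateField.fixedField (H d))) ℓ : ℤ) =
      ∑ P ∈ X, (Nat.card (MulAction.stabilizer (E ≃ₐ[ℚ] E) P) : ℤ) *
        (if MulAction.stabilizer (E ≃ₐ[ℚ] E) P = Subgroup.zpowers σ then 1 else 0) := by
    have h1 : ∀ d ∈ (orderOf σ).divisors,
        c d * (primeCount (↥(IntermediateField.fixedField (H d))) ℓ : ℤ) =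
        ∑ P ∈ X, (Nat.card (MulAction.stabilizer (E ≃ₐ[ℚ] E) P) : ℤ) *
          (ArithmeticFunction.moebius d *
            (if MulAction.stabilizer (E ≃ₐ[ℚ] E) P ≤ H d then (1 : ℤ) else 0)) := by
      intro d _
      have h2 := primeCount_fixedField_mul_card E (H d) ℓ hℓ hunr
      have h3 : ((primeCount (↥(IntermediateField.fixedField (H d))) ℓ : ℤ)) * (Nat.card (H d) : ℤ)
          = ∑ P ∈ X.filter (fun P => MulAction.stabilizer (E ≃ₐ[ℚ] E) P ≤ H d),
            (Nat.card (MulAction.stabilizer (E ≃ₐ[ℚ] E) P) : ℤ) := by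
        have := congrArg (Nat.cast : ℕ → ℤ) h2
        push_cast at this
        convert this using 2
      simp only [c]
      rw [mul_assoc, mul_comm (Nat.card (H d) : ℤ), h3, Finset.sum_filter, Finset.mul_sum]
      refine Finset.sum_congr rfl fun P _ => ?_
      split_ifs <;> ring
    rw [Finset.sum_congr rfl h1, Finset.sum_comm]
    refine Finset.sum_congr rfl fun P _ => ?_
    rw [← Finset.mul_sum, sum_moebius_le_zpowers σ hσ]
  rw [key] at hne
  obtain ⟨P, hPX, hP⟩ := Finset.exists_ne_zero_of_sum_ne_zero hne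
  have hstab : MulAction.stabilizer (E ≃ₐ[ℚ] E) P = Subgroup.zpowers σ := by
    by_contra h
    simp [h] at hP
  have hℓ0 : Ideal.span {(ℓ : ℤ)} ≠ ⊥ := by
    simp [hℓ.ne_zero]
  haveI : (Ideal.span {(ℓ : ℤ)}).IsMaximal :=
    ((Ideal.span_singleton_prime (by exact_mod_cast hℓ.ne_zero)).2
      (Nat.prime_iff_prime_int.1 hℓ)).isMaximal hℓ0
  obtain ⟨hPp, hPo⟩ := (IsDedekindDomain.mem_primesOverFinset_iff hℓ0 _).mp hPX
  have hmem : (ℓ : 𝓞 E) ∈ P := by
    have h1 : (ℓ : ℤ) ∈ Ideal.span {(ℓ : ℤ)} := Ideal.subset_span rfl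
    rw [hPo.over, Ideal.mem_comap] at h1
    simpa using h1
  exact ⟨ℓ, P, hℓ, hℓS', hPp, hmem, hunr P hPp hmem, hstab⟩

end Fermat.Agent.Lib.FrobDensity
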